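import Fermat.Agent.S20.Defs

/-!
# S20 / Infty / Proj: discrete Fourier projectors of a matrix of finite order (pure algebra)
-/

set_option autoImplicit false

open Finset

namespace Fermat.Agent.S20

noncomputable section

/-- Sum of the powers of an `N`-th root of unity. -/
lemma infty_geom_sum {N : ℕ} (c : ℂ) (hc : c ^ N = 1) :
    ∑ m ∈ range N, c ^ m = if c = 1 then (N : ℂ) else 0 := by
  split_ifs with h
  · simp [h]
  · have h1 : (c - 1) * ∑ m ∈ range N, c ^ m = 0 := by
      rw [mul_geom_sum, hc, sub_self]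
    rcases mul_eq_zero.mp h1 with h2 | h2
    · exact absurd (sub_eq_zero.mp h2) h
    · exact h2

lemma infty_ne_zero_of_pow {N : ℕ} (hN : N ≠ 0) {c : ℂ} (hc : c ^ N = 1) : c ≠ 0 := by
  rintro rfl
  rw [zero_pow hN] at hc
  exact zero_ne_one hc

variable {n : Type*} [Fintype n] [DecidableEq n]

/-- The Fourier projector attached to `A` (with `A ^ N = 1`) and the root of unity `ω ^ r`. -/
def inftyProj (N : ℕ) (ω : ℂ) (A : Matrix n n ℂ) (r : ℕ) : Matrix n n ℂ :=
  (N : ℂ)⁻¹ • ∑ m ∈ range N, ω ^ (r * m) • A ^ m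

lemma inftyProj_congr {N : ℕ} {ω : ℂ} (A : Matrix n n ℂ) {r s : ℕ} (h : ω ^ r = ω ^ s) :
    inftyProj N ω A r = inftyProj N ω A s := by
  unfold inftyProj
  congr 1
  refine sum_congr rfl fun m _ => ?_
  rw [pow_mul, pow_mul, h]

/-- Powers of an eigen-relation. -/
lemma infty_pow_mul_eigen {B Q : Matrix n n ℂ} {μ : ℂ} (h : B * Q = μ • Q) (m : ℕ) :
    B ^ m * Q = μ ^ m • Q := by
  induction m with
  | zero => simp
  | succ m ih => rw [pow_succ, mul_assoc, h, Matrix.mul_smul, ih, smul_smul, pow_succ']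

lemma inftyProj_mul_of_eigen {N : ℕ} (hN : N ≠ 0) {ω μ : ℂ} (hω : ω ^ N = 1) (hμ : μ ^ N = 1)
    {B Q : Matrix n n ℂ} (h : B * Q = μ • Q) (r : ℕ) :
    inftyProj N ω B r * Q = if ω ^ r * μ = 1 then Q else 0 := by
  have hc : (ω ^ r * μ) ^ N = 1 := by
    rw [mul_pow, ← pow_mul, mul_comm r N, pow_mul, hω, one_pow, hμ, one_mul]
  have key : (∑ m ∈ range N, ω ^ (r * m) • B ^ m) * Q = (∑ m ∈ range N, (ω ^ r * μ) ^ m) • Q := by
    rw [Finset.sum_mul, Finset.sum_smul]
    refine sum_congr rfl fun m _ => ?_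
    rw [Matrix.smul_mul, infty_pow_mul_eigen h, smul_smul, mul_pow, pow_mul]
  rw [inftyProj, Matrix.smul_mul, key, infty_geom_sum _ hc]
  split_ifs with h1
  · rw [smul_smul, inv_mul_cancel₀ (Nat.cast_ne_zero.mpr hN), one_smul]
  · rw [zero_smul, smul_zero]

lemma inftyProj_mul_left {N : ℕ} (hN : N ≠ 0) {ω : ℂ} (hω : ω ^ N = 1) {A : Matrix n n ℂ}
    (hA : A ^ N = 1) (r : ℕ) : A * inftyProj N ω A r = (ω ^ r)⁻¹ • inftyProj N ω A r := by
  have hω0 : ω ^ r ≠ 0 := pow_ne_zero _ (infty_ne_zero_of_pow hN hω)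
  set B := ω ^ r • A with hB
  have hBN : B ^ N = 1 := by
    rw [hB, smul_pow, hA, ← pow_mul, mul_comm, pow_mul, hω, one_pow, one_smul]
  have hS : ∀ m, ω ^ (r * m) • A ^ m = B ^ m := by
    intro m; rw [hB, smul_pow, pow_mul]
  have hBS : B * ∑ m ∈ range N, B ^ m = ∑ m ∈ range N, B ^ m := by
    rw [Finset.mul_sum]
    have h1 : ∑ m ∈ range N, B * B ^ m = ∑ m ∈ range N, B ^ (m + 1) :=
      sum_congr rfl fun m _ => (pow_succ' B m).symm
    rw [h1]
    have h2 := Finset.sum_range_succ (fun m => B ^ m) N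
    have h3 := Finset.sum_range_succ' (fun m => B ^ m) N
    rw [h2] at h3
    simp only [pow_zero, hBN] at h3
    exact (add_right_cancel h3).symm
  have hAS : A * ∑ m ∈ range N, B ^ m = (ω ^ r)⁻¹ • ∑ m ∈ range N, B ^ m := by
    rw [eq_inv_smul_iff₀ hω0, ← Matrix.smul_mul]
    exact hBS
  rw [inftyProj]
  simp only [hS]
  rw [Matrix.mul_smul, hAS, smul_comm]

lemma inftyProj_mul {N : ℕ} (hN : N ≠ 0) {ω : ℂ} (hω : ω ^ N = 1) {A : Matrix n n ℂ}
    (hA : A ^ N = 1) (r s : ℕ) :
    inftyProj N ω A r * inftyProj N ω A s = if ω ^ r = ω ^ s then inftyProj N ω A s else 0 := by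
  have hω0 : ω ^ s ≠ 0 := pow_ne_zero _ (infty_ne_zero_of_pow hN hω)
  have hμ : ((ω ^ s)⁻¹) ^ N = 1 := by
    rw [inv_pow, ← pow_mul, mul_comm, pow_mul, hω, one_pow, inv_one]
  rw [inftyProj_mul_of_eigen hN hω hμ (inftyProj_mul_left hN hω hA s) r]
  simp only [mul_inv_eq_one₀ hω0]

lemma inftyProj_sum {N : ℕ} (hN : N ≠ 0) {ω : ℂ} (hω : IsPrimitiveRoot ω N) (A : Matrix n n ℂ) :
    ∑ r ∈ range N, inftyProj N ω A r = 1 := by
  simp only [inftyProj]
  rw [← Finset.smul_sum, Finset.sum_comm]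
  have h1 : ∀ m ∈ range N, ∑ r ∈ range N, ω ^ (r * m) • A ^ m =
      (if m = 0 then (N : ℂ) else 0) • A ^ m := by
    intro m hm
    rw [← Finset.sum_smul]
    congr 1
    have h2 : ∑ r ∈ range N, ω ^ (r * m) = ∑ r ∈ range N, (ω ^ m) ^ r :=
      sum_congr rfl fun r _ => by rw [← pow_mul, mul_comm]
    rw [h2, infty_geom_sum]
    · have : ω ^ m = 1 ↔ m = 0 := by
        rw [hω.pow_eq_one_iff_dvd]
        constructor
        · intro hd; exact Nat.eq_zero_of_dvd_of_lt hd (mem_range.mp hm)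
        · rintro rfl; exact dvd_zero _
      simp only [this]
    · rw [← pow_mul, mul_comm, pow_mul, hω.pow_eq_one, one_pow]
  rw [Finset.sum_congr rfl h1, Finset.sum_eq_single 0]
  · simp [hN]
  · intro m _ hm; simp [hm]
  · intro h; exact absurd (mem_range.mpr (Nat.pos_of_ne_zero hN)) h

lemma inftyProj_transpose (N : ℕ) (ω : ℂ) (A : Matrix n n ℂ) (r : ℕ) :
    (inftyProj N ω A r).transpose = inftyProj N ω A.transpose r := by
  simp only [inftyProj, Matrix.transpose_smul, Matrix.transpose_sum, Matrix.transpose_pow]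

lemma inftyProj_transpose_mul {N : ℕ} (hN : N ≠ 0) {ω : ℂ} (hω : ω ^ N = 1) {A : Matrix n n ℂ}
    (hA : A ^ N = 1) (hAt : A.transpose * A = 1) (r s : ℕ) :
    (inftyProj N ω A r).transpose * inftyProj N ω A s =
      if ω ^ r * ω ^ s = 1 then inftyProj N ω A s else 0 := by
  have hω0 : ω ^ s ≠ 0 := pow_ne_zero _ (infty_ne_zero_of_pow hN hω)
  have h1 : A.transpose * inftyProj N ω A s = ω ^ s • inftyProj N ω A s := by
    have h2 := congrArg (fun M => A.transpose * M) (inftyProj_mul_left hN hω hA s)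
    simp only [← Matrix.mul_assoc, hAt, Matrix.one_mul, Matrix.mul_smul] at h2
    rw [eq_inv_smul_iff₀ hω0] at h2
    exact h2.symm
  rw [inftyProj_transpose]
  exact inftyProj_mul_of_eigen hN hω (by rw [← pow_mul, mul_comm, pow_mul, hω, one_pow]) h1 r

lemma inftyProj_commute (N : ℕ) (ω : ℂ) (A : Matrix n n ℂ) (r : ℕ) :
    Commute A (inftyProj N ω A r) := by
  unfold inftyProj
  refine Commute.smul_right (Commute.sum_right _ _ _ fun m _ => ?_) _
  exact Commute.smul_right (Commute.pow_right (Commute.refl A) m) _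

/-- Determinant of `p + q (1 - p)` for an idempotent matrix `p`. -/
lemma infty_det_idem (p : Matrix n n ℂ) (hp : p * p = p) :
    ∃ d : ℕ, d ≤ Fintype.card n ∧ (d : ℂ) = Matrix.trace p ∧
      ∀ q : ℂ, (p + q • (1 - p)).det = q ^ (Fintype.card n - d) := by
  classical
  set f : (n → ℂ) →ₗ[ℂ] (n → ℂ) := Matrix.toLin' p with hf
  have hff : IsIdempotentElem f := by
    change f * f = f
    rw [hf, Module.End.mul_eq_comp, ← Matrix.toLin'_mul, hp]
  have hproj : LinearMap.IsProj (LinearMap.range f) f :=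
    (LinearMap.isProj_range_iff_isIdempotentElem f).mpr hff
  have hrk : Module.finrank ℂ (LinearMap.range f) + Module.finrank ℂ (LinearMap.ker f) =
      Fintype.card n := by
    rw [LinearMap.finrank_range_add_finrank_ker, Module.finrank_fintype_fun_eq_card]
  refine ⟨Module.finrank ℂ (LinearMap.range f), by omega, ?_, ?_⟩
  · rw [← hproj.trace, hf, Matrix.trace_toLin'_eq]
  · intro q
    have hk : Fintype.card n - Module.finrank ℂ (LinearMap.range f) =
        Module.finrank ℂ (LinearMap.ker f) := by omega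
    rw [hk]
    set e := (LinearMap.range f).prodEquivOfIsCompl (LinearMap.ker f) hproj.isCompl with he
    have hg : Matrix.toLin' (p + q • (1 - p)) =
        e.toLinearMap ∘ₗ (LinearMap.prodMap LinearMap.id (q • LinearMap.id)) ∘ₗ
          e.symm.toLinearMap := by
      rw [← LinearMap.comp_assoc, LinearEquiv.eq_comp_toLinearMap_symm]
      have hlin : Matrix.toLin' (p + q • (1 - p)) = f + q • (LinearMap.id - f) := by
        rw [hf]; simp [map_add, map_sub, Matrix.toLin'_one]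
      rw [hlin]
      ext x
      · simp [he, hproj.map_id x x.2]
      · simp [he]
    rw [← LinearMap.det_toLin', hg, LinearMap.det_conj, LinearMap.det_prodMap, LinearMap.det_smul]
    simp

end

end Fermat.Agent.S20
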